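import Fermat.Agent.S18.H634.HauptMember
import Fermat.Agent.S18.Mod.Defs

/-!
# S18 / node_coord (c3) — existence of admissible coordinates (helper634)

`node_coord` has EXACTLY the type of the `sorry` node `Integ.node_coord` of the row skeleton
(`origin/helper18:Fermat/Agent/S18/Integ/Skeleton.lean`, v4):

    theorem node_coord (M : ℕ) [NeZero M] {ℓ : ℕ} [Fact ℓ.Prime] (hℓM : ¬ ℓ ∣ M)
        (h3 : ℓ = 3 → 2 ∣ M) (h2 : ℓ = 2 → 3 ∣ M) : Mod.CoordinateStatement M ℓ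

* `ℓ ≥ 5`: `x = j`, `S = {0, 1728}`;
* `ℓ = 3`: `x = t2 = Δ(q)/Δ(q²)` (helper637's `Lib.Haupt.t2`), `S = {0, -64}`;
* `ℓ = 2`: `x = t3 = (η(q)/η(q³))¹²` (`Lib.Haupt.t3`), `S = {0, -27}`.
-/

set_option autoImplicit false

noncomputable section

namespace Fermat.Agent.S18.H634

open ModularCurve AlgebraicCurve HahnSeries Fermat.Agent.Lib.Haupt Fermat.Agent.S18

/-- `t2` as an element of `Ω = F_M`, `2 ∣ M`. -/
def t2Om (M : ℕ) [NeZero M] (hM : 2 ∣ M) : Mod.Om M :=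
  ⟨t2 Qb, t2_mem_baseChange Qb M hM⟩

/-- `t3` as an element of `Ω = F_M`, `3 ∣ M`. -/
def t3Om (M : ℕ) [NeZero M] (hM : 3 ∣ M) : Mod.Om M :=
  ⟨t3 Qb, t3_mem_baseChange Qb M hM⟩

theorem coe_jOm (M : ℕ) [NeZero M] : ((Mod.jOm M : Mod.Om M) : LaurentSeries Qb) = jqModC Qb := by
  show coeffEmb Qb (qExpand ℚ 1 jq) = jqModC Qb
  rw [qExpand_one_apply, ← jqModC_rat, coeffEmb, coeffMap_jqModC]

theorem jOm_mul_t2Om_sq (M : ℕ) [NeZero M] (hM : 2 ∣ M) :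
    Mod.jOm M * t2Om M hM ^ 2 = (t2Om M hM + 256) ^ 3 := by
  apply Subtype.ext
  have h := jq_mul_t2_sq Qb
  have e1 : ((Mod.jOm M * t2Om M hM ^ 2 : Mod.Om M) : LaurentSeries Qb)
      = jqModC Qb * t2 Qb ^ 2 := by
    rw [← coe_jOm M]; rfl
  have e2 : (((t2Om M hM + 256) ^ 3 : Mod.Om M) : LaurentSeries Qb) = (t2 Qb + 256) ^ 3 := rfl
  rw [e1, e2, h]

theorem jOm_mul_t3Om_cube (M : ℕ) [NeZero M] (hM : 3 ∣ M) :
    Mod.jOm M * t3Om M hM ^ 3 = (t3Om M hM + 27) * (t3Om M hM + 243) ^ 3 := by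
  apply Subtype.ext
  have h := jq_mul_t3_cube Qb
  have e1 : ((Mod.jOm M * t3Om M hM ^ 3 : Mod.Om M) : LaurentSeries Qb)
      = jqModC Qb * t3 Qb ^ 3 := by
    rw [← coe_jOm M]; rfl
  have e2 : (((t3Om M hM + 27) * (t3Om M hM + 243) ^ 3 : Mod.Om M) : LaurentSeries Qb)
      = (t3 Qb + 27) * (t3 Qb + 243) ^ 3 := rfl
  rw [e1, e2, h]

/-- the integral model of `t2`: the series `t2 ℤ`. -/
theorem t2_intModel (M : ℕ) [NeZero M] (hM : 2 ∣ M) :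
    ∃ X : LaurentSeries ℤ, X.coeff (-1) = 1 ∧ (∀ k : ℤ, k < -1 → X.coeff k = 0) ∧
      ((t2Om M hM : Mod.Om M) : LaurentSeries Qb) = coeffMap (Int.castRingHom Qb) X ∧
      coeffMap (Int.castRingHom ℚ) X ∈ modularFunctionFieldFull M := by
  refine ⟨t2 ℤ, coeff_t2_neg_one ℤ, fun k hk => coeff_t2_of_lt ℤ hk, ?_, ?_⟩
  · rw [coeffMap_t2]; rfl
  · rw [coeffMap_t2, ← modularFunctionFieldFullC_rat]
    exact t2_mem_fullC ℚ (by norm_num) M hM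

/-- the integral model of `t3`: the series `t3 ℤ`. -/
theorem t3_intModel (M : ℕ) [NeZero M] (hM : 3 ∣ M) :
    ∃ X : LaurentSeries ℤ, X.coeff (-1) = 1 ∧ (∀ k : ℤ, k < -1 → X.coeff k = 0) ∧
      ((t3Om M hM : Mod.Om M) : LaurentSeries Qb) = coeffMap (Int.castRingHom Qb) X ∧
      coeffMap (Int.castRingHom ℚ) X ∈ modularFunctionFieldFull M := by
  refine ⟨t3 ℤ, coeff_t3_neg_one ℤ, fun k hk => coeff_t3_of_lt ℤ hk, ?_, ?_⟩
  · rw [coeffMap_t3]; rfl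
  · rw [coeffMap_t3, ← modularFunctionFieldFullC_rat]
    exact t3_mem_fullC ℚ (by norm_num) M hM

/-- `t2` is an admissible coordinate for `ℓ = 3`. -/
theorem isCoordinate_t2 (M : ℕ) [NeZero M] (hM : 2 ∣ M) (S : Finset (Mod.Om M))
    (hS : ∀ s, s ∈ S ↔ s = 0 ∨ s = -64) : Mod.IsCoordinate M 3 (t2Om M hM) S :=
  Or.inr ⟨Or.inl ⟨rfl, jOm_mul_t2Om_sq M hM, hS⟩, t2_intModel M hM⟩

/-- `t3` is an admissible coordinate for `ℓ = 2`. -/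
theorem isCoordinate_t3 (M : ℕ) [NeZero M] (hM : 3 ∣ M) (S : Finset (Mod.Om M))
    (hS : ∀ s, s ∈ S ↔ s = 0 ∨ s = -27) : Mod.IsCoordinate M 2 (t3Om M hM) S :=
  Or.inr ⟨Or.inr ⟨rfl, jOm_mul_t3Om_cube M hM, hS⟩, t3_intModel M hM⟩

/-- `j` is an admissible coordinate for `ℓ ≥ 5`. -/
theorem isCoordinate_j (M ℓ : ℕ) (hℓ : 5 ≤ ℓ) (S : Finset (Mod.Om M))
    (hS : ∀ s, s ∈ S ↔ s = 0 ∨ s = 1728) : Mod.IsCoordinate M ℓ (Mod.jOm M) S :=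
  Or.inl ⟨hℓ, rfl, hS⟩

/-- **NODE COORD** (c3), exact type of `Integ.node_coord` (skeleton v4). -/
theorem node_coord (M : ℕ) [NeZero M] {ℓ : ℕ} [Fact ℓ.Prime] (hℓM : ¬ ℓ ∣ M)
    (h3 : ℓ = 3 → 2 ∣ M) (h2 : ℓ = 2 → 3 ∣ M) : Mod.CoordinateStatement M ℓ := by
  classical
  have hp : ℓ.Prime := Fact.out
  by_cases e3 : ℓ = 3
  · subst e3
    exact ⟨t2Om M (h3 rfl), {0, -64}, isCoordinate_t2 M (h3 rfl) _ (by simp)⟩
  by_cases e2 : ℓ = 2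
  · subst e2
    exact ⟨t3Om M (h2 rfl), {0, -27}, isCoordinate_t3 M (h2 rfl) _ (by simp)⟩
  have h5 : 5 ≤ ℓ := by
    have h2' := hp.two_le
    by_contra hlt
    have h4 : ℓ = 4 := by omega
    rw [h4] at hp
    exact absurd hp (by norm_num)
  exact ⟨Mod.jOm M, {0, 1728}, isCoordinate_j M ℓ h5 _ (by simp)⟩

end Fermat.Agent.S18.H634
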