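import Fermat.Agent.Lib.Haupt.Laurent
import Fermat.Prelude.Def_ModularCurve_X0ModL

/-!
# S18 / c3 (helper634): the Hauptmoduln `t2`, `t3` of `Lib/Haupt` (helper637) are transcendental
# and lie in the modular function fields

All statements are about `Fermat.Agent.Lib.Haupt.t2`, `Fermat.Agent.Lib.Haupt.t3`.

* `transcendental_t2`, `transcendental_t3` (any commutative ring of constants)
* `t2_mem_fullC : (2 : K) ≠ 0 → 2 ∣ M → t2 K ∈ modularFunctionFieldFullC K M`
* `t3_mem_fullC : (3 : K) ≠ 0 → 3 ∣ M → t3 K ∈ modularFunctionFieldFullC K M`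
* `t2_mem_baseChange`, `t3_mem_baseChange` : membership in
  `laurentBaseChange L (modularFunctionFieldFull M)` for every field `L` of characteristic `0`.
* `t2_eq_div`, `t3_eq_div` : the explicit rational expressions `t = -num(j, j_d) / den(j, j_d)`.

The membership proofs are explicit eliminations (first subresultant of the two relations of
`Lib/Haupt/Laurent.lean`); the big polynomial expressions are GENERATED
(coord/S18-c3-genmem-helper634.py.txt).
-/

set_option autoImplicit false
set_option maxHeartbeats 4000000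
set_option maxRecDepth 100000

noncomputable section

namespace Fermat.Agent.S18.H634

open ModularCurve HahnSeries Fermat.Agent.Lib.Haupt

/-- series of Hauptmodul shape `q⁻¹ · J(q)` -/
def hauptForm (K : Type*) [CommRing K] (J : PowerSeries ℤ) : LaurentSeries K :=
  qinv K * lau K J

theorem t2_eq_hauptForm (K : Type*) [CommRing K] : t2 K = hauptForm K T2 := rfl

theorem t3_eq_hauptForm (K : Type*) [CommRing K] : t3 K = hauptForm K T3 := rfl

theorem t2_rel_j (K : Type*) [CommRing K] : jqModC K * t2 K ^ 2 = (t2 K + 256) ^ 3 :=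
  jq_mul_t2_sq K

theorem t2_rel_j2 (K : Type*) [CommRing K] : jqNModC K 2 * t2 K = (t2 K + 16) ^ 3 :=
  jq2_mul_t2 K

theorem t3_rel_j (K : Type*) [CommRing K] :
    jqModC K * t3 K ^ 3 = (t3 K + 27) * (t3 K + 243) ^ 3 :=
  jq_mul_t3_cube K

theorem t3_rel_j3 (K : Type*) [CommRing K] :
    jqNModC K 3 * t3 K = (t3 K + 27) * (t3 K + 3) ^ 3 :=
  jq3_mul_t3 K

/-! ### series of Hauptmodul shape -/

section HauptForm

variable (K : Type*) [CommRing K] (J : PowerSeries ℤ)

theorem hauptForm_pow (n : ℕ) :
    hauptForm K J ^ n = HahnSeries.single (-(n : ℤ)) 1 *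
      HahnSeries.ofPowerSeries ℤ K ((J.map (Int.castRingHom K)) ^ n) := by
  have h : n • (-1 : ℤ) = -(n : ℤ) := by simp
  rw [hauptForm, qinv, lau, mul_pow, HahnSeries.single_pow, one_pow, h, ← map_pow]

variable {J}

theorem constantCoeff_map_int (hJ : PowerSeries.constantCoeff J = 1) :
    PowerSeries.constantCoeff (J.map (Int.castRingHom K)) = 1 := by
  rw [← PowerSeries.coeff_zero_eq_constantCoeff, PowerSeries.coeff_map,
    PowerSeries.coeff_zero_eq_constantCoeff, hJ, map_one]

theorem coeff_hauptForm_pow_self (hJ : PowerSeries.constantCoeff J = 1) (n : ℕ) :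
    (hauptForm K J ^ n).coeff (-(n : ℤ)) = 1 := by
  rw [hauptForm_pow, HahnSeries.coeff_single_mul, one_mul, sub_neg_eq_add, neg_add_cancel,
    show (0 : ℤ) = ((0 : ℕ) : ℤ) from rfl, HahnSeries.ofPowerSeries_apply_coeff,
    PowerSeries.coeff_zero_eq_constantCoeff, map_pow, constantCoeff_map_int K hJ, one_pow]

variable (J) in
theorem coeff_hauptForm_pow_of_lt {n : ℕ} {m : ℤ} (hm : m < -(n : ℤ)) :
    (hauptForm K J ^ n).coeff m = 0 := by
  rw [hauptForm_pow, HahnSeries.coeff_single_mul, one_mul]
  exact ofPowerSeries_coeff_of_neg _ (by omega)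

theorem algebraMap_laurent_eq_single (c : K) :
    algebraMap K (LaurentSeries K) c = HahnSeries.single 0 c := by
  have h1 : algebraMap K (PowerSeries K) c = PowerSeries.C c := by simp
  rw [HahnSeries.algebraMap_apply', h1, HahnSeries.ofPowerSeries_C]
  rfl

theorem aeval_hauptForm_eq_zero (hJ : PowerSeries.constantCoeff J = 1) {p : Polynomial K}
    (hp : Polynomial.aeval (hauptForm K J) p = 0) : p = 0 := by
  by_contra hp0
  set n := p.natDegree with hn
  have hcoeff : (Polynomial.aeval (hauptForm K J) p).coeff (-(n : ℤ)) = p.coeff n := by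
    rw [Polynomial.aeval_def, Polynomial.eval₂_eq_sum_range, HahnSeries.coeff_sum,
      Finset.sum_eq_single n]
    · rw [algebraMap_laurent_eq_single, HahnSeries.coeff_single_zero_mul,
        coeff_hauptForm_pow_self K hJ, mul_one]
    · intro i hi hin
      have hilt : i < n := lt_of_le_of_ne (Nat.lt_succ_iff.mp (Finset.mem_range.mp hi)) hin
      rw [algebraMap_laurent_eq_single, HahnSeries.coeff_single_zero_mul,
        coeff_hauptForm_pow_of_lt, mul_zero]
      omega
    · intro hn'
      exact absurd (Finset.self_mem_range_succ n) hn'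
  rw [hp] at hcoeff
  simp only [HahnSeries.coeff_zero] at hcoeff
  exact hp0 (Polynomial.leadingCoeff_eq_zero.mp hcoeff.symm)

theorem transcendental_hauptForm (hJ : PowerSeries.constantCoeff J = 1) :
    Transcendental K (hauptForm K J) :=
  transcendental_iff.mpr fun _ hp => aeval_hauptForm_eq_zero K hJ hp

theorem transcendental_t2 : Transcendental K (t2 K) :=
  transcendental_hauptForm K constantCoeff_T2

theorem transcendental_t3 : Transcendental K (t3 K) :=
  transcendental_hauptForm K constantCoeff_T3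

end HauptForm


/-! ### `t2` lies in the function field of level divisible by `2` -/

section Memt2

variable {L : Type*} [Field L]

/-- (generated) the denominator of the elimination -/
def den2 (j J : L) : L := (19906560000) + (-161280) * J + (1) * J^2 + (25067520) * j + (1488) * j * J + (768) * j^2 + (-1) * j^2 * J

/-- (generated) the numerator of the elimination -/
def num2 (j J : L) : L := (2707292160000) + (16773120) * J + (799211520) * j + (4096) * j^2

/-- (generated) first subresultant relation -/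
theorem lin2 (j J t : L) (h1 : j * t ^ 2 = (t + 256) ^ 3) (h2 : J * t = (t + 16) ^ 3) :
    den2 j J * t + num2 j J = 0 := by
  unfold den2 num2
  linear_combination (-(((161280) + (1) * J + (48) * j) + ((-720) + (1) * j) * t)) * h1 + (-(((357120) + (-1) * J + (-1488) * j + (1) * j^2) + ((720) + (-1) * j) * t)) * h2

/-- (generated) the denominator in terms of `t` -/
theorem den2_mul (j J t : L) (h1 : j * t ^ 2 = (t + 256) ^ 3) (h2 : J * t = (t + 16) ^ 3) :
    den2 j J * t ^ 5 = -((2 : L) ^ 24 * ((1) * t ^ 6 + (96) * t ^ 5 + (198960) * t ^ 4 + (9451775) * t ^ 3 + (814940160) * t ^ 2 + (1610612736) * t + (68719476736))) := by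
  have e0 : den2 j J * t ^ 5 = (19906560000) * t ^ 5 + (-161280) * (J * t) ^ 1 * t ^ 4 + (1) * (J * t) ^ 2 * t ^ 3 + (25067520) * (j * t ^ 2) ^ 1 * t ^ 3 + (1488) * (j * t ^ 2) ^ 1 * (J * t) ^ 1 * t ^ 2 + (768) * (j * t ^ 2) ^ 2 * t ^ 1 + (-1) * (j * t ^ 2) ^ 2 * (J * t) ^ 1 := by
    unfold den2
    ring
  rw [e0, h1, h2]
  ring

end Memt2

theorem den2_jq_ne_zero (K : Type*) [Field K] (hchar : (2 : K) ≠ 0) :
    den2 (jqModC K) (jqNModC K 2) ≠ 0 := by
  have h1 := t2_rel_j K
  have h2 := t2_rel_j2 K
  have hlin := lin2 (jqModC K) (jqNModC K 2) (t2 K) h1 h2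
  have hmul := den2_mul (jqModC K) (jqNModC K 2) (t2 K) h1 h2
  -- the denominator does not vanish
  have hQ : ((1) * t2 K ^ 6 + (96) * t2 K ^ 5 + (198960) * t2 K ^ 4 + (9451775) * t2 K ^ 3 + (814940160) * t2 K ^ 2 + (1610612736) * t2 K + (68719476736) : LaurentSeries K) ≠ 0 := by
    have hp : ((1) * Polynomial.X ^ 6 + (96) * Polynomial.X ^ 5 + (198960) * Polynomial.X ^ 4 + (9451775) * Polynomial.X ^ 3 + (814940160) * Polynomial.X ^ 2 + (1610612736) * Polynomial.X + (68719476736) : Polynomial K).Monic := by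
      monicity!
    have h := mt (aeval_hauptForm_eq_zero K constantCoeff_T2
      (p := ((1) * Polynomial.X ^ 6 + (96) * Polynomial.X ^ 5 + (198960) * Polynomial.X ^ 4 + (9451775) * Polynomial.X ^ 3 + (814940160) * Polynomial.X ^ 2 + (1610612736) * Polynomial.X + (68719476736) : Polynomial K))) hp.ne_zero
    simpa only [map_add, map_mul, map_pow, Polynomial.aeval_X, map_ofNat, map_one, ← t2_eq_hauptForm] using h
  have hp : ((2 : LaurentSeries K) ^ 24) ≠ 0 := by
    apply pow_ne_zero
    have : (2 : LaurentSeries K) = algebraMap K (LaurentSeries K) 2 := (map_ofNat _ 2).symm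
    rw [this]
    exact (map_ne_zero _).mpr hchar
  have hden : den2 (jqModC K) (jqNModC K 2) ≠ 0 := by
    intro h0
    rw [h0, zero_mul] at hmul
    exact (mul_ne_zero hp hQ) (neg_eq_zero.mp hmul.symm)
  exact hden

/-- explicit rational expression of `t2` in `j(q)`, `j(q^2)` -/
theorem t2_eq_div (K : Type*) [Field K] (hchar : (2 : K) ≠ 0) :
    t2 K = -num2 (jqModC K) (jqNModC K 2) / den2 (jqModC K) (jqNModC K 2) := by
  have hlin := lin2 (jqModC K) (jqNModC K 2) (t2 K) (t2_rel_j K) (t2_rel_j2 K)
  rw [eq_div_iff (den2_jq_ne_zero K hchar)]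
  linear_combination hlin

theorem t2_mem_fullC (K : Type*) [Field K] (hchar : (2 : K) ≠ 0) (M : ℕ) [NeZero M]
    (hM : 2 ∣ M) : t2 K ∈ modularFunctionFieldFullC K M := by
  set F := modularFunctionFieldFullC K M with hF
  have hj : jqModC K ∈ F := jqModC_mem_full K M
  have hJ : jqNModC K 2 ∈ F := jqModCd_mem_full K M hM
  -- membership of numerator and denominator
  have hden_mem : den2 (jqModC K) (jqNModC K 2) ∈ F := by
    have := (den2 (⟨_, hj⟩ : F) (⟨_, hJ⟩ : F)).2
    unfold den2 at this ⊢
    exact_mod_cast this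
  have hnum_mem : num2 (jqModC K) (jqNModC K 2) ∈ F := by
    have := (num2 (⟨_, hj⟩ : F) (⟨_, hJ⟩ : F)).2
    unfold num2 at this ⊢
    exact_mod_cast this
  rw [t2_eq_div K hchar]
  exact div_mem (neg_mem hnum_mem) hden_mem


/-! ### `t3` lies in the function field of level divisible by `3` -/

section Memt3

variable {L : Type*} [Field L]

/-- (generated) the denominator of the elimination -/
def den3 (j J : L) : L := (2641807540224000000000) + (328219361280000) * J + (36864720) * J^2 + (1) * J^3 + (-572980708638720000) * j + (9457338111840) * j * J + (-1069956) * j * J^2 + (3513047559120) * j^2 + (2202104637) * j^2 * J + (2232) * j^2 * J^2 + (-374706) * j^3 + (1512) * j^3 * J + (-1) * j^3 * J^2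

/-- (generated) the numerator of the elimination -/
def num3 (j J : L) : L := (71328803586048000000000) + (-35305797058560000) * J + (387419760) * J^2 + (-10354866501058560000) * j + (55775383276320) * j * J + (16876879720560) * j^2 + (13945510476) * j^2 * J + (-551124) * j^3 + (729) * j^3 * J

/-- (generated) first subresultant relation -/
theorem lin3 (j J t : L) (h1 : j * t ^ 3 = (t + 27) * (t + 243) ^ 3) (h2 : J * t = (t + 27) * (t + 3) ^ 3) :
    den3 j J * t + num3 j J = 0 := by
  unfold den3 num3
  linear_combination (-(((184115773440000) + (-91130400) * J + (1) * J^2 + (-26714059200) * j + (143964) * j * J + (45684) * j^2 + (36) * j^2 * J) + ((-2269347840000) + (321840) * J + (-145586160) * j + (-1440) * j * J + (8964) * j^2 + (1) * j^2 * J) * t + ((19906560000) + (-720) * J + (25818480) * j + (1) * j * J + (270) * j^2) * t^2)) * h1 + (-(((-1947040727040000) + (-17733600) * J + (-1) * J^2 + (-7260113332800) * j + (1069956) * j * J + (-1127624004) * j^2 + (-2232) * j^2 * J + (-756) * j^3 + (1) * j^3 *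 J) + ((-12063375360000) + (196560) * J + (1462840560) * j + (25615116) * j^2 + (270) * j^3) * t + ((-19906560000) + (720) * J + (-25818480) * j + (-1) * j * J + (-270) * j^2) * t^2)) * h2

/-- (generated) the denominator in terms of `t` -/
theorem den3_mul (j J t : L) (h1 : j * t ^ 3 = (t + 27) * (t + 243) ^ 3) (h2 : J * t = (t + 27) * (t + 3) ^ 3) :
    den3 j J * t ^ 11 = -((3 : L) ^ 18 * ((1) * t ^ 16 + (108) * t ^ 15 + (201528) * t ^ 14 + (59626404) * t ^ 13 + (42369876252) * t ^ 12 + (6661370952684) * t ^ 11 + (710775193256712) * t ^ 10 + (27393572738312388) * t ^ 9 + (795914464089548294) * t ^ 8 + (19969914526229730852) * t ^ 7 + (377735079479540281992) * t ^ 6 + (2580751591899231142476) * t ^ 5 + (11966504510609689549212) * t ^ 4 + (12276547822292907512196) * t ^ 3 + (30248271662133638856888) * t ^ 2 + (11817250826203334794572) * t + (79766443076872509863361))) := by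
  have e0 : den3 j J * t ^ 11 = (2641807540224000000000) * t ^ 11 + (328219361280000) * (J * t) ^ 1 * t ^ 10 + (36864720) * (J * t) ^ 2 * t ^ 9 + (1) * (J * t) ^ 3 * t ^ 8 + (-572980708638720000) * (j * t ^ 3) ^ 1 * t ^ 8 + (9457338111840) * (j * t ^ 3) ^ 1 * (J * t) ^ 1 * t ^ 7 + (-1069956) * (j * t ^ 3) ^ 1 * (J * t) ^ 2 * t ^ 6 + (3513047559120) * (j * t ^ 3) ^ 2 * t ^ 5 + (2202104637) * (j * t ^ 3) ^ 2 * (J * t) ^ 1 * t ^ 4 + (2232) * (j * t ^ 3) ^ 2 * (J * t) ^ 2 * t ^ 3 + (-374706) * (j * t ^ 3) ^ 3 * t ^ 2 + (1512) * (j * t ^ 3) ^ 3 * (J * t) ^ 1 * t ^ 1 + (-1) * (j * t ^ 3) ^ 3 * (J * t) ^ 2 := by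
    unfold den3
    ring
  rw [e0, h1, h2]
  ring

end Memt3

theorem den3_jq_ne_zero (K : Type*) [Field K] (hchar : (3 : K) ≠ 0) :
    den3 (jqModC K) (jqNModC K 3) ≠ 0 := by
  have h1 := t3_rel_j K
  have h2 := t3_rel_j3 K
  have hlin := lin3 (jqModC K) (jqNModC K 3) (t3 K) h1 h2
  have hmul := den3_mul (jqModC K) (jqNModC K 3) (t3 K) h1 h2
  -- the denominator does not vanish
  have hQ : ((1) * t3 K ^ 16 + (108) * t3 K ^ 15 + (201528) * t3 K ^ 14 + (59626404) * t3 K ^ 13 + (42369876252) * t3 K ^ 12 + (6661370952684) * t3 K ^ 11 + (710775193256712) * t3 K ^ 10 + (27393572738312388) * t3 K ^ 9 + (795914464089548294) * t3 K ^ 8 + (19969914526229730852) * t3 K ^ 7 + (377735079479540281992) * t3 K ^ 6 + (2580751591899231142476) * t3 K ^ 5 + (11966504510609689549212) * t3 K ^ 4 + (12276547822292907512196) * t3 K ^ 3 + (30248271662133638856888) * t3 K ^ 2 + (11817250826203334794572) * t3 K + (79766443076872509863361) : LaurentSeries K) ≠ 0 := by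
    have hp : ((1) * Polynomial.X ^ 16 + (108) * Polynomial.X ^ 15 + (201528) * Polynomial.X ^ 14 + (59626404) * Polynomial.X ^ 13 + (42369876252) * Polynomial.X ^ 12 + (6661370952684) * Polynomial.X ^ 11 + (710775193256712) * Polynomial.X ^ 10 + (27393572738312388) * Polynomial.X ^ 9 + (795914464089548294) * Polynomial.X ^ 8 + (19969914526229730852) * Polynomial.X ^ 7 + (377735079479540281992) * Polynomial.X ^ 6 + (2580751591899231142476) * Polynomial.X ^ 5 + (11966504510609689549212) * Polynomial.X ^ 4 + (12276547822292907512196) * Polynomial.X ^ 3 + (30248271662133638856888) * Polynomial.X ^ 2 + (11817250826203334794572) * Polynomial.X + (79766443076872509863361) : Polynomial K).Monic := by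
      monicity!
    have h := mt (aeval_hauptForm_eq_zero K constantCoeff_T3
      (p := ((1) * Polynomial.X ^ 16 + (108) * Polynomial.X ^ 15 + (201528) * Polynomial.X ^ 14 + (59626404) * Polynomial.X ^ 13 + (42369876252) * Polynomial.X ^ 12 + (6661370952684) * Polynomial.X ^ 11 + (710775193256712) * Polynomial.X ^ 10 + (27393572738312388) * Polynomial.X ^ 9 + (795914464089548294) * Polynomial.X ^ 8 + (19969914526229730852) * Polynomial.X ^ 7 + (377735079479540281992) * Polynomial.X ^ 6 + (2580751591899231142476) * Polynomial.X ^ 5 + (11966504510609689549212) * Polynomial.X ^ 4 + (12276547822292907512196) * Polynomial.X ^ 3 + (30248271662133638856888) * Polynomial.X ^ 2 + (11817250826203334794572) * Polynomial.X + (79766443076872509863361) : Polynomial K))) hp.ne_zero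
    simpa only [map_add, map_mul, map_pow, Polynomial.aeval_X, map_ofNat, map_one, ← t3_eq_hauptForm] using h
  have hp : ((3 : LaurentSeries K) ^ 18) ≠ 0 := by
    apply pow_ne_zero
    have : (3 : LaurentSeries K) = algebraMap K (LaurentSeries K) 3 := (map_ofNat _ 3).symm
    rw [this]
    exact (map_ne_zero _).mpr hchar
  have hden : den3 (jqModC K) (jqNModC K 3) ≠ 0 := by
    intro h0
    rw [h0, zero_mul] at hmul
    exact (mul_ne_zero hp hQ) (neg_eq_zero.mp hmul.symm)
  exact hden

/-- explicit rational expression of `t3` in `j(q)`, `j(q^3)` -/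
theorem t3_eq_div (K : Type*) [Field K] (hchar : (3 : K) ≠ 0) :
    t3 K = -num3 (jqModC K) (jqNModC K 3) / den3 (jqModC K) (jqNModC K 3) := by
  have hlin := lin3 (jqModC K) (jqNModC K 3) (t3 K) (t3_rel_j K) (t3_rel_j3 K)
  rw [eq_div_iff (den3_jq_ne_zero K hchar)]
  linear_combination hlin

theorem t3_mem_fullC (K : Type*) [Field K] (hchar : (3 : K) ≠ 0) (M : ℕ) [NeZero M]
    (hM : 3 ∣ M) : t3 K ∈ modularFunctionFieldFullC K M := by
  set F := modularFunctionFieldFullC K M with hF
  have hj : jqModC K ∈ F := jqModC_mem_full K M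
  have hJ : jqNModC K 3 ∈ F := jqModCd_mem_full K M hM
  -- membership of numerator and denominator
  have hden_mem : den3 (jqModC K) (jqNModC K 3) ∈ F := by
    have := (den3 (⟨_, hj⟩ : F) (⟨_, hJ⟩ : F)).2
    unfold den3 at this ⊢
    exact_mod_cast this
  have hnum_mem : num3 (jqModC K) (jqNModC K 3) ∈ F := by
    have := (num3 (⟨_, hj⟩ : F) (⟨_, hJ⟩ : F)).2
    unfold num3 at this ⊢
    exact_mod_cast this
  rw [t3_eq_div K hchar]
  exact div_mem (neg_mem hnum_mem) hden_mem


/-! ### base change: membership in `laurentBaseChange L (modularFunctionFieldFull M)` -/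

theorem t2_mem_baseChange (L : Type*) [Field L] [Algebra ℚ L] (M : ℕ) [NeZero M] (hM : 2 ∣ M) :
    t2 L ∈ laurentBaseChange L (modularFunctionFieldFull M) := by
  have h := t2_mem_fullC ℚ (by norm_num) M hM
  rw [modularFunctionFieldFullC_rat] at h
  have h' := coeffEmb_mem_laurentBaseChange L h
  rwa [coeffEmb, coeffMap_t2] at h'

theorem t3_mem_baseChange (L : Type*) [Field L] [Algebra ℚ L] (M : ℕ) [NeZero M] (hM : 3 ∣ M) :
    t3 L ∈ laurentBaseChange L (modularFunctionFieldFull M) := by
  have h := t3_mem_fullC ℚ (by norm_num) M hM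
  rw [modularFunctionFieldFullC_rat] at h
  have h' := coeffEmb_mem_laurentBaseChange L h
  rwa [coeffEmb, coeffMap_t3] at h'

end Fermat.Agent.S18.H634
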